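import Fermat.Agent.LT.A.Fin

/-!
# LT, piece E: small facts about the absolute values `av w`
-/

set_option autoImplicit false

open NumberField IsDedekindDomain Matrix

namespace Fermat.LT.E

variable {F : Type} [Field F] [NumberField F]

theorem av_le_av_iff (w : Pl F) (x y : F) :
    av w x ≤ av w y ↔ w.valuation F x ≤ w.valuation F y := by
  have h : (av w x ≤ av w y) ↔ WithZeroMulInt.toNNReal
      (ne_zero_of_lt (NumberField.HeightOneSpectrum.one_lt_absNorm_nnreal w)) (w.valuation F x) ≤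
      WithZeroMulInt.toNNReal (ne_zero_of_lt (NumberField.HeightOneSpectrum.one_lt_absNorm_nnreal w))
        (w.valuation F y) := Iff.rfl
  rw [h, (WithZeroMulInt.toNNReal_strictMono
    (NumberField.HeightOneSpectrum.one_lt_absNorm_nnreal w)).le_iff_le]

theorem av_lt_av_iff (w : Pl F) (x y : F) :
    av w x < av w y ↔ w.valuation F x < w.valuation F y := by
  rw [← not_le, ← not_le, av_le_av_iff]

theorem av_le_one_iff (w : Pl F) (x : F) : av w x ≤ 1 ↔ w.valuation F x ≤ 1 := by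
  have := av_le_av_iff w x 1
  rwa [map_one, map_one] at this

theorem av_lt_one_iff (w : Pl F) (x : F) : av w x < 1 ↔ w.valuation F x < 1 := by
  have := av_lt_av_iff w x 1
  rwa [map_one, map_one] at this

theorem av_eq_one_iff (w : Pl F) (x : F) : av w x = 1 ↔ w.valuation F x = 1 := by
  have h1 := av_le_one_iff w x
  have h2 := av_lt_one_iff w x
  constructor
  · intro h
    exact le_antisymm (h1.mp h.le) (not_lt.mp fun h' => absurd (h2.mpr h') (by rw [h]; exact lt_irrefl _))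
  · intro h
    exact le_antisymm (h1.mpr h.le) (not_lt.mp fun h' => absurd (h2.mp h') (by rw [h]; exact lt_irrefl _))

theorem av_int_le_one (w : Pl F) (a : 𝓞 F) : av w (algebraMap (𝓞 F) F a) ≤ 1 := by
  rw [av_le_one_iff]
  exact w.valuation_le_one a

theorem av_int_lt_one_iff (w : Pl F) (a : 𝓞 F) :
    av w (algebraMap (𝓞 F) F a) < 1 ↔ a ∈ w.asIdeal := by
  rw [av_lt_one_iff]
  exact w.valuation_lt_one_iff_mem a

theorem av_int_eq_one_iff (w : Pl F) (a : 𝓞 F) :
    av w (algebraMap (𝓞 F) F a) = 1 ↔ a ∉ w.asIdeal := by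
  rw [← av_int_lt_one_iff, not_lt]
  exact ⟨fun h => h.ge, fun h => le_antisymm (av_int_le_one w a) h⟩

theorem av_sub_le (w : Pl F) (x y : F) : av w (x - y) ≤ max (av w x) (av w y) := by
  rw [sub_eq_add_neg]
  refine (av_add_le w _ _).trans ?_
  rw [(av w).map_neg]

theorem exists_av_lt_one (w : Pl F) : ∃ p : F, p ≠ 0 ∧ av w p < 1 := by
  obtain ⟨p, hp⟩ := w.valuation_exists_uniformizer F
  refine ⟨p, ?_, ?_⟩
  · rintro rfl
    rw [map_zero] at hp
    exact WithZero.exp_ne_zero hp.symm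
  · rw [av_lt_one_iff, hp]
    exact WithZero.exp_lt_exp.mpr (by norm_num : (-1 : ℤ) < 0)

theorem exists_int_approx (w : Pl F) {x : F} (hx : av w x ≤ 1) {r : ℝ} (hr : 0 < r) :
    ∃ a : 𝓞 F, av w (x - algebraMap (𝓞 F) F a) ≤ r := by
  obtain ⟨p, hp0, hp1⟩ := exists_av_lt_one w
  obtain ⟨n, hn⟩ := exists_pow_lt_of_lt_one hr hp1
  have h0 : w.valuation F (p ^ n) ≠ 0 := by
    rw [Ne, Valuation.zero_iff]
    exact pow_ne_zero n hp0
  obtain ⟨a, ha⟩ := w.exists_valuation_sub_lt_of_integer ((av_le_one_iff w x).mp hx)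
    (Units.mk0 _ h0)
  refine ⟨a, ?_⟩
  rw [← (av w).map_neg, neg_sub]
  rw [Units.val_mk0, ← av_lt_av_iff] at ha
  rw [map_pow] at ha
  exact (ha.trans hn).le

theorem exists_fin_classes (w : Pl F) {r : ℝ} (hr : 0 < r) :
    ∃ (X : Type) (_ : Finite X) (f : F → X),
      ∀ x y, av w x ≤ 1 → av w y ≤ 1 → f x = f y → av w (x - y) ≤ r := by
  classical
  obtain ⟨p, hp0, hp1⟩ := exists_av_lt_one w
  obtain ⟨n, hn⟩ := exists_pow_lt_of_lt_one hr hp1
  -- `b ∈ w^m` implies `|b| ≤ r` for some `m`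
  obtain ⟨m, hm⟩ : ∃ m : ℕ, WithZero.exp (-(m : ℤ)) ≤ w.valuation F (p ^ n) := by
    have h0 : w.valuation F (p ^ n) ≠ 0 := by
      rw [Ne, Valuation.zero_iff]
      exact pow_ne_zero n hp0
    obtain ⟨k, hk⟩ : ∃ k : ℤ, w.valuation F (p ^ n) = WithZero.exp k :=
      ⟨WithZero.log (w.valuation F (p ^ n)), (WithZero.exp_log h0).symm⟩
    refine ⟨(-k).toNat, ?_⟩
    rw [hk, WithZero.exp_le_exp]
    have := Int.self_le_toNat (-k)
    omega
  have hfin : Finite (𝓞 F ⧸ w.asIdeal ^ m) :=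
    Ideal.finiteQuotientOfFreeOfNeBot _ (pow_ne_zero m w.ne_bot)
  have key : ∀ x : F, av w x ≤ 1 → ∃ a : 𝓞 F, av w (x - algebraMap (𝓞 F) F a) ≤ r :=
    fun x hx => exists_int_approx w hx hr
  refine ⟨𝓞 F ⧸ w.asIdeal ^ m, hfin, fun x => if h : av w x ≤ 1 then
    Ideal.Quotient.mk _ (key x h).choose else 0, ?_⟩
  intro x y hx hy hxy
  simp only [hx, hy, dif_pos] at hxy
  set a := (key x hx).choose with ha
  set b := (key y hy).choose with hb
  have hax : av w (x - algebraMap (𝓞 F) F a) ≤ r := (key x hx).choose_spec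
  have hby : av w (y - algebraMap (𝓞 F) F b) ≤ r := (key y hy).choose_spec
  have hab : av w (algebraMap (𝓞 F) F a - algebraMap (𝓞 F) F b) ≤ r := by
    rw [← map_sub]
    have h1 : a - b ∈ w.asIdeal ^ m := Ideal.Quotient.eq.mp hxy
    have h2 := (w.intValuation_le_pow_iff_mem (a - b) m).mpr h1
    rw [← w.valuation_of_algebraMap (K := F)] at h2
    have h3 := (av_le_av_iff w _ _).mpr (h2.trans hm)
    rw [map_pow] at h3
    exact h3.trans hn.le
  have : x - y = (x - algebraMap (𝓞 F) F a) +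
      ((algebraMap (𝓞 F) F a - algebraMap (𝓞 F) F b) - (y - algebraMap (𝓞 F) F b)) := by ring
  rw [this]
  exact (av_add_le w _ _).trans (max_le hax ((av_sub_le w _ _).trans (max_le hab hby)))

end Fermat.LT.E
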